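import Fermat.Agent.S26.H1665.CubeLike
import Fermat.Agent.S26.H2925.SeesawTop

/-!
# S26 / P15 CUBE3, leaf CL7: the frozen export `cube3_curves` from two named inputs (helper1665)

`cube3_curves_of_slices` has exactly the signature of the frozen export
`Fermat.Agent.S26.cube3_curves` (TChain.lean) plus two hypotheses:

* `hCI : CurveInput sC (prodS sC₂ sC₃)` — the curve input `(C1) + (K3)` of helper2925's
  `seesaw_of_curveInput` (the SAME input as for the seesaw on `C × T`, here with `T = C₂ × C₃`);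
* `hSl : HasSlices sC sC₂ sC₃ y₀ z₀` — existence of the slice data `IsSlice` of helper8423's
  `Core8423` at the axis points (leaf CL5: `C × B`, `B` the normalisation of a curve through `t`).

Everything else is proved: `IsCubeLike` (CubeLike.lean, LocVert.lean), helper8423's abstract
`cube3_of_slices`, and the passage from the two plane hypotheses of `CubeProp3` to the fibres over
the axis points.  Frozen exports used: `stalk_isIntegrallyClosed_of_smooth` (P6) and
`stalk_ufd_of_smooth` (P4) only.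
-/

set_option autoImplicit false

universe u

open CategoryTheory CategoryTheory.Limits AlgebraicGeometry

namespace Fermat.Agent.S26.CUBE3.H1665

open Fermat.Agent.S26 Fermat.Agent.S26.SEESAW.H7004 Fermat.Agent.S26.DIV.H2384
  Fermat.Agent.S26.CUBE3.H8423

noncomputable section

variable {K : Type u} [Field K] {C Y Z : Scheme.{u}}
  (sC : C ⟶ Spec (CommRingCat.of K)) (sY : Y ⟶ Spec (CommRingCat.of K))
  (sZ : Z ⟶ Spec (CommRingCat.of K))

/-- The `K`-points of `Y × Z` on the two axes through `(y₀, z₀)`. -/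
def axisPts (y₀ : Pts sY) (z₀ : Pts sZ) : Set (Pts (prodS sY sZ)) :=
  {t | (∃ z : Pts sZ, t = Fermat.Agent.S26.CUBE3.H2963.pairPt y₀ z) ∨
    (∃ y : Pts sY, t = Fermat.Agent.S26.CUBE3.H2963.pairPt y z₀)}

/-- Leaf CL5 as a hypothesis: slice data over a curve through every axis point `t`, for every
non-closed non-generic generization `γ` of `t` and every `K`-point `x` of `C`. -/
def HasSlices [IsIntegral C] [IsIntegral (pullback sY sZ)]
    [IsIntegral (pullback sC (prodS sY sZ))] (y₀ : Pts sY) (z₀ : Pts sZ) : Prop :=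
  ∀ t ∈ axisPts sY sZ y₀ z₀, ∀ (x : Pts sC) (γ : ↥(pullback sY sZ)),
    γ ⤳ ptOf t → γ ≠ ptOf t → γ ≠ genericPoint ↥(pullback sY sZ) →
      ∃ (B S' : Scheme.{u}) (_ : IsIntegral B) (_ : IsIntegral S')
        (ν : B ⟶ pullback sY sZ) (μ : S' ⟶ pullback sC (prodS sY sZ)) (pB : S' ⟶ B)
        (i' : C ⟶ S') (s : B ⟶ S'),
        IsSlice (pullback.snd sC (prodS sY sZ)) (sliceL sC t) (sliceR x (prodS sY sZ)) (ptOf x)
          γ ν μ pB i' s

/-- A Cartier class on `C × (Y × Z)` which is trivial on the two coordinate planes through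
`y₀`, `z₀` is trivial on the fibres over the axis points.  (Axiom-clean version of helper2963's
`pullc_sliceL_axis_left/right`.) -/
theorem pullc_sliceL_axis [IsIntegral C] [IsIntegral (pullback sC sZ)]
    [IsIntegral (pullback sC sY)] [IsIntegral (pullback sC (prodS sY sZ))]
    (y₀ : Pts sY) (z₀ : Pts sZ) (M : Fam (pullback sC (prodS sY sZ))) (hM : M.IsCartier)
    (hXZ : Fam.LinEquiv (Fam.pullc (planeXZ sC y₀ sZ) M) 1)
    (hXY : Fam.LinEquiv (Fam.pullc (planeXY sC sY z₀) M) 1)
    (t : Pts (prodS sY sZ)) (ht : t ∈ axisPts sY sZ y₀ z₀) :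
    Fam.LinEquiv (Fam.pullc (sliceL sC t) M) 1 := by
  rcases ht with ⟨z, rfl⟩ | ⟨y, rfl⟩
  · rw [Fermat.Agent.S26.CUBE3.H2963.sliceL_pairPt_left]
    have h1 := Fermat.Agent.S26.DIV.H2384.pullc_comp (sliceL sC z) (planeXZ sC y₀ sZ) hM
    have h2 := Fermat.Agent.S26.DIV.H2384.pullc_linEquiv (sliceL sC z) (Fermat.Agent.S26.DIV.H2384.pullc_isCartier (planeXZ sC y₀ sZ) hM)
      Fermat.Agent.S26.DIV.H2384.isCartier_one hXZ
    rw [Fermat.Agent.S26.DIV.H2384.pullc_one] at h2
    rw [h1]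
    exact h2
  · rw [Fermat.Agent.S26.CUBE3.H2963.sliceL_pairPt_right]
    have h1 := Fermat.Agent.S26.DIV.H2384.pullc_comp (sliceL sC y) (planeXY sC sY z₀) hM
    have h2 := Fermat.Agent.S26.DIV.H2384.pullc_linEquiv (sliceL sC y) (Fermat.Agent.S26.DIV.H2384.pullc_isCartier (planeXY sC sY z₀) hM)
      Fermat.Agent.S26.DIV.H2384.isCartier_one hXY
    rw [Fermat.Agent.S26.DIV.H2384.pullc_one] at h2
    rw [h1]
    exact h2

/-- The cube property for `C × (Y × Z)` from the bridge hypotheses in explicit form (no frozen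
export is used: axioms are the three standard ones), the curve input and the slice data. -/
theorem cubeProp3_of_slices [IsAlgClosed K] [LocallyOfFiniteType sC] [IsProper sY] [IsProper sZ]
    [IsIntegral C] [IsIntegral Y] [IsIntegral Z]
    [IsIntegral (pullback sY sZ)] [IsIntegral (pullback sC sZ)] [IsIntegral (pullback sC sY)]
    [IsIntegral (pullback sC (prodS sY sZ))]
    (hnC : ∀ x : C, IsIntegrallyClosed (C.presheaf.stalk x))
    (hufdT : ∀ x : ↥(pullback sY sZ),
      UniqueFactorizationMonoid ((pullback sY sZ).presheaf.stalk x))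
    (hnX : ∀ x : ↥(pullback sC (prodS sY sZ)),
      IsIntegrallyClosed ((pullback sC (prodS sY sZ)).presheaf.stalk x))
    (h2 : ∀ W : Set Y, IsClosed W → IsIrreducible W → W = Set.univ ∨ ∃ y, W = {y})
    (h3 : ∀ W : Set Z, IsClosed W → IsIrreducible W → W = Set.univ ∨ ∃ z, W = {z})
    (hY : ¬ IsClosed ({genericPoint Y} : Set Y)) (hZ : ¬ IsClosed ({genericPoint Z} : Set Z))
    (c₀ : Pts sC) (y₀ : Pts sY) (z₀ : Pts sZ)
    (hCI : Fermat.Agent.S26.CxT2925.CurveInput sC (prodS sY sZ))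
    (hSl : HasSlices sC sY sZ y₀ z₀) :
    CubeProp3 sC sY sZ c₀ y₀ z₀ := by
  intro M hM h0 hXZ hXY
  obtain ⟨E, hE, hE1, hK3⟩ := hCI
  have S := isCubeLike_prod sC sY sZ hnC hufdT hnX h2 h3 hY hZ c₀ y₀ z₀
  refine cube3_of_slices S hE hE1 ?_ hM (hK3 M hM) ?_ h0
  · intro t ht x γ hγ hne hgen
    rw [pt_sliceL] at hγ hne
    exact hSl t ht x γ hγ hne hgen
  · intro t ht
    exact pullc_sliceL_axis sC sY sZ y₀ z₀ M hM hXZ hXY t ht

/-- **Cube for three curves** (frozen P15 export `cube3_curves`) modulo the curve input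
`(C1) + (K3)` and the slice data (CL5). -/
theorem cube3_curves_of_slices [IsAlgClosed K] (hC : IsSmoothProperCurve sC)
    (hY : IsSmoothProperCurve sY) (hZ : IsSmoothProperCurve sZ)
    [IsIntegral C] [IsIntegral Y] [IsIntegral Z]
    [IsIntegral (pullback sY sZ)] [IsIntegral (pullback sC sZ)] [IsIntegral (pullback sC sY)]
    [IsIntegral (pullback sC (prodS sY sZ))]
    (c₀ : Pts sC) (y₀ : Pts sY) (z₀ : Pts sZ)
    (hCI : Fermat.Agent.S26.CxT2925.CurveInput sC (prodS sY sZ))
    (hSl : HasSlices sC sY sZ y₀ z₀) :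
    CubeProp3 sC sY sZ c₀ y₀ z₀ := by
  intro M hM h0 hXZ hXY
  obtain ⟨E, hE, hE1, hK3⟩ := hCI
  have S := isCubeLike_curves sC sY sZ hC hY hZ c₀ y₀ z₀
  refine cube3_of_slices S hE hE1 ?_ hM (hK3 M hM) ?_ h0
  · intro t ht x γ hγ hne hgen
    rw [pt_sliceL] at hγ hne
    exact hSl t ht x γ hγ hne hgen
  · intro t ht
    exact pullc_sliceL_axis sC sY sZ y₀ z₀ M hM hXZ hXY t ht

end

end Fermat.Agent.S26.CUBE3.H1665
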