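import Fermat.Agent.S26.H1665.LocVert
import Fermat.Agent.S26.CUBE3.AxisBridge
import Fermat.Agent.S26.CUBE3.CurveDim

/-!
# S26 / P15 CUBE3, leaves CL1-CL4: the bridge `IsCubeLike` for `C ×_K (Y ×_K Z)` (helper1665)

`isCubeLike_prod`: all fields of helper8423's `IsCubeLike` (`CUBE3/Core8423.lean`) for
`X = C ×_K T`, `T = Y ×_K Z`, with
* `ι = Pts (prodS sY sZ)`, `i t = sliceL sC t`, `j = sliceR c₀ _`,
* `κ = Pts sC`, `cx x = ptOf x`, `jx x = sliceR x _`,
* `Ax = {(y₀, z)} ∪ {(y, z₀)}` (helper2963's `pairPt`).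

Inputs: `prod` = helper2925's `isProductLike_prod`; `locVert` = `exists_locVert` (LocVert.lean);
`axes` = helper2963's `exists_axis_pt`; `krull` = Krull's principal ideal theorem + helper2963's
`exists_between_prod`; sections / `dense'` / `closedPt` are proved here.

`isCubeLike_curves` is the instance for three smooth proper curves (modulo the frozen exports
`stalk_isIntegrallyClosed_of_smooth` (P6) and `stalk_ufd_of_smooth` (P4) of `Geom.lean`).
-/

set_option autoImplicit false

universe u

open CategoryTheory CategoryTheory.Limits AlgebraicGeometry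

namespace Fermat.Agent.S26.CUBE3.H1665

open Fermat.Agent.S26 Fermat.Agent.S26.SEESAW.H7004 Fermat.Agent.S26.DIV.H2384
  Fermat.Agent.S26.DIV.Generization5416 Fermat.Agent.S26.CUBE3.H8423

noncomputable section

/-! ### Sections and closed points of `C ×_K T` -/

section General

variable {K : Type u} [Field K] {C T : Scheme.{u}}
  (sC : C ⟶ Spec (CommRingCat.of K)) (sT : T ⟶ Spec (CommRingCat.of K))

/-- The point of `T` under the fibre `C × {t}` is the closed point of `t`. -/
theorem pt_sliceL [IsIntegral C] [IsIntegral T] [IsIntegral (pullback sC sT)] (t : Pts sT) :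
    pt (pullback.snd sC sT) (fun t : Pts sT => sliceL sC t) t = ptOf t := by
  unfold pt ptOf
  have h := congrArg (fun φ : C ⟶ T => φ.base (genericPoint C))
    (Fermat.Agent.S26.CxT2925.sliceL_snd sC sT t)
  simp only [Scheme.Hom.comp_base, TopCat.hom_comp, ContinuousMap.comp_apply] at h
  rw [h]
  exact congrArg _ (Subsingleton.elim _ _)

/-- The section `{x} × T` lies over the closed point `x`. -/
theorem sliceR_fst_base (x : Pts sC) (τ : T) :
    (pullback.fst sC sT).base ((sliceR x sT).base τ) = ptOf x := by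
  have h := congrArg (fun φ : T ⟶ C => φ.base τ) (Fermat.Agent.S26.CxT2925.sliceR_fst sC sT x)
  simp only [Scheme.Hom.comp_base, TopCat.hom_comp, ContinuousMap.comp_apply] at h
  rw [h]
  exact congrArg _ (Subsingleton.elim _ _)

theorem comp_sliceR_eq_comp_sliceL (x : Pts sC) (t : Pts sT) :
    t.1 ≫ sliceR x sT = x.1 ≫ sliceL sC t := by
  apply pullback.hom_ext
  · rw [Category.assoc, Fermat.Agent.S26.CxT2925.sliceR_fst, ← Category.assoc, t.2,
      Category.id_comp, Category.assoc, Fermat.Agent.S26.CxT2925.sliceL_fst, Category.comp_id]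
  · rw [Category.assoc, Fermat.Agent.S26.CxT2925.sliceR_snd, Category.comp_id, Category.assoc,
      Fermat.Agent.S26.CxT2925.sliceL_snd, ← Category.assoc, x.2, Category.id_comp]

/-- The section at `x` meets the fibre over `t` in the point `(x, t)`. -/
theorem sliceR_ptOf (x : Pts sC) (t : Pts sT) :
    (sliceR x sT).base (ptOf t) = (sliceL sC t).base (ptOf x) := by
  change (t.1 ≫ sliceR x sT).base (IsLocalRing.closedPoint K) =
    (x.1 ≫ sliceL sC t).base (IsLocalRing.closedPoint K)
  rw [comp_sliceR_eq_comp_sliceL]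

/-- Closed points `(x, τ)` are dense in every locally closed set `closure {ξ} \ A`
(field `dense'` of `IsCubeLike`). -/
theorem dense'_prod [IsAlgClosed K] [LocallyOfFiniteType sC] [LocallyOfFiniteType sT]
    (ξ : ↥(pullback sC sT)) (A : Set ↥(pullback sC sT)) (hA : IsClosed A) (hξ : ξ ∉ A) :
    ∃ (x : Pts sC) (τ : T), ξ ⤳ (sliceR x sT).base τ ∧ (sliceR x sT).base τ ∉ A := by
  have hJ : JacobsonSpace ↥(pullback sC sT) :=
    Fermat.Agent.S26.SEESAW.H1876.jacobsonSpace_pullback sC sT
  have hL : IsLocallyClosed (closure {ξ} ∩ Aᶜ) :=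
    isClosed_closure.isLocallyClosed.inter hA.isOpen_compl.isLocallyClosed
  have hLne : (closure {ξ} ∩ Aᶜ).Nonempty := ⟨ξ, subset_closure rfl, hξ⟩
  obtain ⟨x₀, ⟨hx₀cl, hx₀A⟩, hx₀closed⟩ := nonempty_inter_closedPoints hLne hL
  have hxc : IsClosed ({x₀} : Set ↥(pullback sC sT)) := hx₀closed
  set a : Spec (CommRingCat.of K) ⟶ pullback sC sT :=
    pointOfClosedPoint (pullback.fst sC sT ≫ sC) x₀ hxc with ha
  have haf : a ≫ pullback.fst sC sT ≫ sC = 𝟙 _ := pointOfClosedPoint_comp _ x₀ hxc
  have hax : ∀ z, a.base z = x₀ := fun z => pointOfClosedPoint_apply _ x₀ hxc z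
  have has : a ≫ pullback.snd sC sT ≫ sT = 𝟙 _ := by rw [← pullback.condition]; exact haf
  let x : Pts sC := ⟨a ≫ pullback.fst sC sT, by rw [Category.assoc]; exact haf⟩
  have hslice : (a ≫ pullback.snd sC sT) ≫ sliceR x sT = a := by
    apply pullback.hom_ext
    · rw [Category.assoc, Fermat.Agent.S26.CxT2925.sliceR_fst]
      show a ≫ pullback.snd sC sT ≫ sT ≫ a ≫ pullback.fst sC sT = a ≫ pullback.fst sC sT
      rw [← Category.assoc (pullback.snd sC sT), ← Category.assoc a, has, Category.id_comp]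
    · rw [Category.assoc, Fermat.Agent.S26.CxT2925.sliceR_snd, Category.comp_id]
  have hpt : (sliceR x sT).base ((pullback.snd sC sT).base x₀) = x₀ := by
    obtain ⟨z⟩ : Nonempty ↥(Spec (CommRingCat.of K)) := ⟨IsLocalRing.closedPoint K⟩
    have h1 : (sliceR x sT).base ((pullback.snd sC sT).base (a.base z)) = a.base z := by
      change ((a ≫ pullback.snd sC sT) ≫ sliceR x sT).base z = _
      rw [hslice]
    rwa [hax z] at h1
  refine ⟨x, (pullback.snd sC sT).base x₀, ?_, ?_⟩
  · rw [hpt]; exact specializes_iff_mem_closure.2 hx₀cl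
  · rw [hpt]; exact hx₀A

/-- Every point of a `K`-scheme locally of finite type specialises to a `K`-point
(field `closedPt` of `IsCubeLike`). -/
theorem exists_specializes_ptOf [IsAlgClosed K] [LocallyOfFiniteType sT] (τ : T) :
    ∃ t : Pts sT, τ ⤳ ptOf t := by
  have hJ : JacobsonSpace T := Fermat.Agent.S26.SEESAW.H1876.jacobsonSpace_of_field sT
  obtain ⟨x₀, hx₀cl, hx₀closed⟩ := nonempty_inter_closedPoints (Z := closure {τ})
    ⟨τ, subset_closure rfl⟩ isClosed_closure.isLocallyClosed
  have hxc : IsClosed ({x₀} : Set T) := hx₀closed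
  obtain ⟨t, ht⟩ := Fermat.Agent.S26.CUBE3.H2963.exists_ptOf_eq sT x₀ hxc
  exact ⟨t, by rw [ht]; exact specializes_iff_mem_closure.2 hx₀cl⟩

end General

/-! ### Krull's principal ideal theorem on the surface `Y ×_K Z` -/

section Krull

variable {K : Type u} [Field K] [IsAlgClosed K] {Y Z : Scheme.{u}}
  (sY : Y ⟶ Spec (CommRingCat.of K)) (sZ : Z ⟶ Spec (CommRingCat.of K))

/-- Field `krull` of `IsCubeLike`: a nonzero non-unit of the local ring at a closed point `t` of
`Y ×_K Z` is a non-unit at some proper generization of `t`. -/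
theorem krull_prod [LocallyOfFiniteType sY] [LocallyOfFiniteType sZ]
    [IsIntegral Y] [IsIntegral Z] [IsIntegral (pullback sY sZ)]
    (hY : ¬ IsClosed ({genericPoint Y} : Set Y)) (hZ : ¬ IsClosed ({genericPoint Z} : Set Z))
    (t : Pts (prodS sY sZ)) (h : (pullback sY sZ).functionField)
    (hmem : h ∈ localRing (pullback sY sZ) (ptOf t)) (h0 : h ≠ 0)
    (hnu : ¬ IsUnitAt (ptOf t) h) :
    ∃ γ : ↥(pullback sY sZ), γ ⤳ ptOf t ∧ γ ≠ ptOf t ∧ ¬ IsUnitAt γ h := by
  have hft : LocallyOfFiniteType (prodS sY sZ) := by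
    unfold prodS; infer_instance
  have hnoe : IsLocallyNoetherian (pullback sY sZ) :=
    LocallyOfFiniteType.isLocallyNoetherian (prodS sY sZ)
  obtain ⟨r, rfl⟩ := hmem
  have hr0 : r ≠ 0 := fun h => h0 (by rw [h, map_zero])
  have hru : ¬ IsUnit r := fun hu => hnu (isUnitAt_algebraMap_of_isUnit hu)
  have hne : Ideal.span {r} ≠ ⊤ := by rwa [Ne, Ideal.span_singleton_eq_top]
  obtain ⟨P, hP⟩ := Ideal.nonempty_minimalPrimes hne
  have hPp : P.IsPrime := hP.1.1
  have hrP : r ∈ P := hP.1.2 (Ideal.mem_span_singleton_self r)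
  have hht : P.height ≤ 1 := Ideal.height_le_one_of_isPrincipal_of_mem_minimalPrimes _ P hP
  obtain ⟨γ, hγ, rfl⟩ := exists_specializes_primeOfSpecializes_eq (ptOf t) P
  refine ⟨γ, hγ, ?_, ?_⟩
  · intro heq
    have hco := height_primeOfSpecializes hγ
    have hco' : (primeOfSpecializes hγ).height = Order.coheight γ := by exact_mod_cast hco
    have hle : Order.coheight γ ≤ 1 := hco' ▸ hht
    obtain ⟨ξ, hξt, hξne, hξgen⟩ := Fermat.Agent.S26.CUBE3.H2963.exists_between_prod sY sZ hY hZ
      (ptOf t) (Fermat.Agent.S26.CUBE3.H2963.isClosed_ptOf (prodS sY sZ) t)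
    have h1 : ptOf t < ξ := by
      rw [lt_iff_le_not_ge]
      refine ⟨Scheme.le_iff_specializes.2 hξt, fun h' => hξne ?_⟩
      exact ((Scheme.le_iff_specializes.1 h').antisymm hξt).eq.symm
    have h2 : ξ < genericPoint ↥(pullback sY sZ) := by
      rw [lt_iff_le_not_ge]
      refine ⟨Scheme.le_iff_specializes.2 ((genericPoint_spec _).specializes trivial),
        fun h' => hξgen ?_⟩
      exact Fermat.Agent.S26.CxT2925.eq_genericPoint_of_specializes'
        (Scheme.le_iff_specializes.1 h')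
    have h3 := Order.coheight_add_one_le h1
    have h4 := Order.coheight_add_one_le h2
    rw [heq] at hle
    have h5 : (1 : ℕ∞) + 1 ≤ 1 := by
      calc (1 : ℕ∞) + 1 ≤ Order.coheight ξ + 1 := by
            gcongr
            exact le_trans (by simp) h4
        _ ≤ Order.coheight (ptOf t) := h3
        _ ≤ 1 := hle
    exact absurd h5 (by decide)
  · intro hu
    have e := Fermat.Agent.S26.DIV.Bridge5416.algebraMap_stalkSpecializes (pullback sY sZ) hγ r
    rw [← e] at hu
    rcases isUnitAt_algebraMap_iff.1 hu with h1 | h1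
    · exact ((mem_primeOfSpecializes hγ r).1 hrP) h1
    · apply hr0
      apply algebraMap_stalk_injective (ptOf t)
      rw [← e, h1, map_zero, map_zero]

end Krull

/-! ### The bridge -/

section Bridge

variable {K : Type u} [Field K] [IsAlgClosed K] {C Y Z : Scheme.{u}}
  (sC : C ⟶ Spec (CommRingCat.of K)) (sY : Y ⟶ Spec (CommRingCat.of K))
  (sZ : Z ⟶ Spec (CommRingCat.of K))

/-- **The bridge hypotheses `IsCubeLike` of the abstract cube theorem hold for
`C ×_K (Y ×_K Z)`**: `C` integral, locally of finite type, normal; `Y`, `Z` proper integral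
curve-like `K`-schemes; `Y ×_K Z` integral with factorial local rings; `C ×_K (Y ×_K Z)` integral
with integrally closed local rings. -/
theorem isCubeLike_prod [LocallyOfFiniteType sC] [IsProper sY] [IsProper sZ]
    [IsIntegral C] [IsIntegral Y] [IsIntegral Z] [IsIntegral (pullback sY sZ)]
    [IsIntegral (pullback sC (prodS sY sZ))]
    (hnC : ∀ x : C, IsIntegrallyClosed (C.presheaf.stalk x))
    (hufdT : ∀ x : ↥(pullback sY sZ),
      UniqueFactorizationMonoid ((pullback sY sZ).presheaf.stalk x))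
    (hnX : ∀ x : ↥(pullback sC (prodS sY sZ)),
      IsIntegrallyClosed ((pullback sC (prodS sY sZ)).presheaf.stalk x))
    (h2 : ∀ W : Set Y, IsClosed W → IsIrreducible W → W = Set.univ ∨ ∃ y, W = {y})
    (h3 : ∀ W : Set Z, IsClosed W → IsIrreducible W → W = Set.univ ∨ ∃ z, W = {z})
    (hY : ¬ IsClosed ({genericPoint Y} : Set Y)) (hZ : ¬ IsClosed ({genericPoint Z} : Set Z))
    (c₀ : Pts sC) (y₀ : Pts sY) (z₀ : Pts sZ) :
    IsCubeLike (pullback.fst sC (prodS sY sZ)) (pullback.snd sC (prodS sY sZ))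
      (fun t : Pts (prodS sY sZ) => sliceL sC t) (sliceR c₀ (prodS sY sZ))
      (fun x : Pts sC => ptOf x) (fun x : Pts sC => sliceR x (prodS sY sZ))
      {t | (∃ z : Pts sZ, t = Fermat.Agent.S26.CUBE3.H2963.pairPt y₀ z) ∨
        (∃ y : Pts sY, t = Fermat.Agent.S26.CUBE3.H2963.pairPt y z₀)} := by
  have hft : LocallyOfFiniteType (prodS sY sZ) := by
    unfold prodS; infer_instance
  have hnT : ∀ x : ↥(pullback sY sZ), IsIntegrallyClosed ((pullback sY sZ).presheaf.stalk x) :=
    fun x => by
      have := hufdT x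
      infer_instance
  have hnoeX : IsLocallyNoetherian (pullback sC (prodS sY sZ)) :=
    LocallyOfFiniteType.isLocallyNoetherian (pullback.fst sC (prodS sY sZ) ≫ sC)
  have hgiC : GeometricallyIrreducible sC :=
    Fermat.Agent.S26.SEESAW.H1876.geometricallyIrreducible_of_isAlgClosed sC
  have hopenT : IsOpenMap (pullback.snd sC (prodS sY sZ)) :=
    (pullback.snd sC (prodS sY sZ)).isOpenMap
  exact
    { prod := Fermat.Agent.S26.CxT2925.isProductLike_prod sC (prodS sY sZ) hnC hnT hnX c₀
      ax_nonempty := ⟨Fermat.Agent.S26.CUBE3.H2963.pairPt y₀ z₀, Or.inl ⟨z₀, rfl⟩⟩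
      jx_pT := fun x => Fermat.Agent.S26.CxT2925.sliceR_snd sC (prodS sY sZ) x
      jx_pC := fun x τ => sliceR_fst_base sC (prodS sY sZ) x τ
      jx_i := fun x t => by
        rw [pt_sliceL]
        exact sliceR_ptOf sC (prodS sY sZ) x t
      dense' := fun ξ A hA hξ => dense'_prod sC (prodS sY sZ) ξ A hA hξ
      closedPt := fun τ => by
        obtain ⟨t, ht⟩ := exists_specializes_ptOf (prodS sY sZ) τ
        exact ⟨t, by rw [pt_sliceL]; exact ht⟩
      locVert := fun Y' hY' t => by
        have := hufdT (pt (pullback.snd sC (prodS sY sZ))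
          (fun t : Pts (prodS sY sZ) => sliceL sC t) t)
        exact exists_locVert hnX (pullback.snd sC (prodS sY sZ)) hopenT
          (Fermat.Agent.S26.H4943.stalkPrime_snd sC (prodS sY sZ)) _ Y' hY'
      krull := fun t h hmem h0 hnu => by
        rw [pt_sliceL] at hmem hnu ⊢
        exact krull_prod sY sZ hY hZ t h hmem h0 hnu
      axes := fun γ t' hγ hne => by
        rw [pt_sliceL] at hγ hne
        obtain ⟨t, ht, hax⟩ :=
          Fermat.Agent.S26.CUBE3.H2963.exists_axis_pt sY sZ h2 h3 y₀ z₀ γ (ptOf t') hγ hne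
        exact ⟨t, hax, by rw [pt_sliceL]; exact ht⟩ }

/-- The bridge `IsCubeLike` for three smooth proper curves (modulo the frozen exports
`stalk_isIntegrallyClosed_of_smooth` and `stalk_ufd_of_smooth` of `Geom.lean`). -/
theorem isCubeLike_curves (hC : IsSmoothProperCurve sC) (hY : IsSmoothProperCurve sY)
    (hZ : IsSmoothProperCurve sZ)
    [IsIntegral C] [IsIntegral Y] [IsIntegral Z] [IsIntegral (pullback sY sZ)]
    [IsIntegral (pullback sC (prodS sY sZ))]
    (c₀ : Pts sC) (y₀ : Pts sY) (z₀ : Pts sZ) :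
    IsCubeLike (pullback.fst sC (prodS sY sZ)) (pullback.snd sC (prodS sY sZ))
      (fun t : Pts (prodS sY sZ) => sliceL sC t) (sliceR c₀ (prodS sY sZ))
      (fun x : Pts sC => ptOf x) (fun x : Pts sC => sliceR x (prodS sY sZ))
      {t | (∃ z : Pts sZ, t = Fermat.Agent.S26.CUBE3.H2963.pairPt y₀ z) ∨
        (∃ y : Pts sY, t = Fermat.Agent.S26.CUBE3.H2963.pairPt y z₀)} := by
  have hsmC1 : SmoothOfRelativeDimension 1 sC := hC.smooth
  have hsmY1 : SmoothOfRelativeDimension 1 sY := hY.smooth
  have hsmZ1 : SmoothOfRelativeDimension 1 sZ := hZ.smooth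
  have hsmC : Smooth sC := SmoothOfRelativeDimension.smooth 1 sC
  have hsmY : Smooth sY := SmoothOfRelativeDimension.smooth 1 sY
  have hsmZ : Smooth sZ := SmoothOfRelativeDimension.smooth 1 sZ
  have hpY : IsProper sY := hY.proper
  have hpZ : IsProper sZ := hZ.proper
  have hsmT : Smooth (prodS sY sZ) := by
    unfold prodS; infer_instance
  have hsmX : Smooth (pullback.fst sC (prodS sY sZ) ≫ sC) := inferInstance
  have hcl : ∀ {W : Scheme.{u}} (sW : W ⟶ Spec (CommRingCat.of K))
      [SmoothOfRelativeDimension 1 sW] [IsIntegral W] (S : Set W), IsClosed S → IsIrreducible S →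
      S = Set.univ ∨ ∃ w, S = {w} := by
    intro W sW _ _ S hS hSi
    rcases cd_curveLike sW S hS hSi with h | h
    · exact Or.inl h
    · obtain ⟨w, hw⟩ := hSi.nonempty
      exact Or.inr ⟨w, Set.Subsingleton.eq_singleton_of_mem h hw⟩
  exact isCubeLike_prod sC sY sZ (fun x => stalk_isIntegrallyClosed_of_smooth sC x)
    (fun x => stalk_ufd_of_smooth (prodS sY sZ) x)
    (fun x => stalk_isIntegrallyClosed_of_smooth (pullback.fst sC (prodS sY sZ) ≫ sC) x)
    (hcl sY) (hcl sZ) (cd_not_isClosed_genericPoint sY) (cd_not_isClosed_genericPoint sZ)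
    c₀ y₀ z₀

end Bridge

end

end Fermat.Agent.S26.CUBE3.H1665
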