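import Fermat.Agent.S26.H2925.CxT
import Fermat.Agent.S26.CUBE3.Core8423

/-!
# S26 / P15 CUBE3, leaf CL3: the local vertical modification `locVert` (helper1665)

`exists_locVert`: let `p : X ⟶ B` be an open, geometrically irreducible morphism of integral
schemes whose stalk maps preserve prime elements (e.g. the projection `C ×_K T ⟶ T`), `X` locally
noetherian with integrally closed stalks, and let `τ : B` be a point whose local ring is
factorial.  Then for every Cartier family `Y` on `X` there is `v ∈ K(B)ˣ` such that `Y / p^* v`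
is a unit at every vertical height-one point `ξ` of `X` with `p ξ ⤳ τ`.

This is exactly the field `locVert` of helper8423's `IsCubeLike` (`CUBE3/Core8423.lean`).
-/

set_option autoImplicit false

universe u

open CategoryTheory CategoryTheory.Limits AlgebraicGeometry

namespace Fermat.Agent.S26.CUBE3.H1665

open Fermat.Agent.S26 Fermat.Agent.S26.SEESAW.H7004 Fermat.Agent.S26.DIV.H2384
  Fermat.Agent.S26.DIV.Generization5416

noncomputable section

/-! ### Algebra -/

/-- In a domain, a nonzero prime contained in a height-one prime is equal to it. -/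
theorem eq_of_le_of_ne_bot_of_height_one {A : Type*} [CommRing A] [IsDomain A] {P Q : Ideal A}
    [P.IsPrime] [Q.IsPrime] (hQP : Q ≤ P) (hQ : Q ≠ ⊥) (hP : P.height = 1) : Q = P := by
  by_contra hne
  have hlt : Q < P := lt_of_le_of_ne hQP hne
  have hfh : P.FiniteHeight := ⟨Or.inr (by rw [hP]; exact ENat.one_ne_top)⟩
  have h1 := Ideal.height_strict_mono_of_isPrime_of_isPrime hlt
  rw [hP] at h1
  have h2 : Q.height = 0 := Order.lt_one_iff.mp h1
  exact hQ (Ideal.height_eq_zero_iff_eq_bot.mp h2)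

/-- In a noetherian domain only finitely many height-one primes contain a given nonzero
element. -/
theorem finite_height_one_primes_mem {A : Type*} [CommRing A] [IsDomain A] [IsNoetherianRing A]
    {a : A} (ha : a ≠ 0) : {P : Ideal A | P.IsPrime ∧ P.height = 1 ∧ a ∈ P}.Finite := by
  apply (Ideal.finite_minimalPrimes_of_isNoetherianRing A (Ideal.span {a})).subset
  rintro P ⟨hP, hP1, haP⟩
  refine ⟨⟨hP, (Ideal.span_singleton_le_iff_mem _).2 haP⟩, ?_⟩
  rintro Q ⟨hQ, haQ⟩ hQP
  have hQ0 : Q ≠ ⊥ := by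
    intro h
    apply ha
    have := haQ (Ideal.mem_span_singleton_self a)
    rw [h] at this
    simpa using this
  exact (eq_of_le_of_ne_bot_of_height_one hQP hQ0 hP1).ge

/-! ### Units -/

section Units

variable {X : Scheme.{u}} [IsIntegral X]

theorem isUnitAt_finset_prod {ι : Type*} (s : Finset ι) (g : ι → X.functionField) (x : X)
    (h : ∀ i ∈ s, IsUnitAt x (g i)) : IsUnitAt x (∏ i ∈ s, g i) :=
  Finset.prod_induction g (IsUnitAt x) (fun _ _ ha hb => isUnitAt_mul ha hb) (isUnitAt_one x) h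

end Units

/-! ### Uniformizers pulled back from the base -/

section Scheme

variable {X B : Scheme.{u}} [IsIntegral X] [IsIntegral B]

/-- If the stalk maps of `p` preserve prime elements, then at a point `ξ` of coheight one with
integrally closed local ring, the pull-back of any prime element of `O_{B, p ξ}` is a
uniformizer.  (Precise form of `hasPulledUniformizers_of_stalkPrime` of helper2925.) -/
theorem pulled_uniformizer_of_prime [IsLocallyNoetherian X]
    (p : X ⟶ B) (hprime : Fermat.Agent.S26.H4943.StalkPrime p) (ξ : X)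
    (hξ1 : Order.coheight ξ = 1) [IsIntegrallyClosed (X.presheaf.stalk ξ)]
    (τ : B.presheaf.stalk (p ξ)) (hτ : Prime τ) (f : X.functionField) (hf : f ≠ 0) :
    ∃ m : ℤ, IsUnitAt ξ
      (f * pullFun p (algebraMap (B.presheaf.stalk (p ξ)) B.functionField τ) ^ m) := by
  have hdvrX : IsDiscreteValuationRing (X.presheaf.stalk ξ) :=
    Fermat.Agent.S26.DIV.Hartogs5416.isDiscreteValuationRing_stalk ξ hξ1
  have hτ' : Prime ((p.stalkMap ξ).hom τ) := hprime ξ τ hτ
  have hirr : Irreducible ((p.stalkMap ξ).hom τ) := hτ'.irreducible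
  have hpull : pullFun p (algebraMap (B.presheaf.stalk (p ξ)) B.functionField τ) =
      algebraMap (X.presheaf.stalk ξ) X.functionField ((p.stalkMap ξ).hom τ) :=
    pullFun_algebraMap_at p ξ τ
  rw [hpull]
  obtain ⟨a, b, hb, rfl⟩ := IsFractionRing.div_surjective (A := X.presheaf.stalk ξ) f
  have hb0 : b ≠ 0 := nonZeroDivisors.ne_zero hb
  have ha0 : a ≠ 0 := by
    rintro rfl
    simp at hf
  obtain ⟨n, u, hu⟩ := IsDiscreteValuationRing.eq_unit_mul_pow_irreducible ha0 hirr
  obtain ⟨k, v, hv'⟩ := IsDiscreteValuationRing.eq_unit_mul_pow_irreducible hb0 hirr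
  refine ⟨(k : ℤ) - n, ?_⟩
  set ϖ := algebraMap (X.presheaf.stalk ξ) X.functionField ((p.stalkMap ξ).hom τ) with hϖ
  have hϖ0 : ϖ ≠ 0 := by
    intro h0
    exact hirr.ne_zero (algebraMap_stalk_injective ξ (by rw [← hϖ, h0, map_zero]))
  have hv0 : algebraMap (X.presheaf.stalk ξ) X.functionField (v : X.presheaf.stalk ξ) ≠ 0 := by
    intro h0
    exact v.ne_zero (algebraMap_stalk_injective ξ (by rw [h0, map_zero]))
  have key : algebraMap (X.presheaf.stalk ξ) X.functionField a /
      algebraMap (X.presheaf.stalk ξ) X.functionField b * ϖ ^ ((k : ℤ) - n) =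
      algebraMap (X.presheaf.stalk ξ) X.functionField (u : X.presheaf.stalk ξ) /
        algebraMap (X.presheaf.stalk ξ) X.functionField (v : X.presheaf.stalk ξ) := by
    rw [hu, hv', map_mul, map_mul, map_pow, map_pow, ← hϖ, zpow_sub₀ hϖ0, zpow_natCast,
      zpow_natCast]
    have h1 : ϖ ^ n ≠ 0 := pow_ne_zero n hϖ0
    have h2 : ϖ ^ k ≠ 0 := pow_ne_zero k hϖ0
    field_simp
  rw [key]
  exact isUnitAt_div (isUnitAt_algebraMap_of_isUnit u.isUnit)
    (isUnitAt_algebraMap_of_isUnit v.isUnit)

/-- The vertical height-one points of `X` over the generizations of `τ`. -/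
def VertAt (p : X ⟶ B) (τ : B) (ξ : X) : Prop :=
  IsHtOne ξ ∧ p.base ξ ≠ genericPoint B ∧ p.base ξ ⤳ τ

/-- The image of a vertical height-one point has coheight one. -/
theorem coheight_base_of_vertAt (p : X ⟶ B) [GeometricallyIrreducible p] (hp : IsOpenMap p)
    {τ : B} {ξ : X} (h : VertAt p τ ξ) : Order.coheight (p.base ξ) = 1 := by
  have hξ1 : Order.coheight ξ = 1 := (Fermat.Agent.S26.CxT2925.isHtOne_iff_coheight ξ).1 h.1
  have hlt : p ξ < genericPoint B := by
    rw [lt_iff_le_not_ge]
    refine ⟨Scheme.le_iff_specializes.2 ((genericPoint_spec B).specializes trivial),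
      fun h' => h.2.1 ?_⟩
    exact Fermat.Agent.S26.CxT2925.eq_genericPoint_of_specializes' (Scheme.le_iff_specializes.1 h')
  exact (Fermat.Agent.S26.H2925.closure_eq_preimage_of_coheight_eq_one p hp hξ1 hlt).2

/-- At a vertical height-one point `ξ` over a generization of the factorial point `τ` there is a
prime element `q` of `O_{B,τ}` whose pull-back is a uniformizer at `ξ` and a unit at all other
such points. -/
theorem exists_prime_uniformizer [IsLocallyNoetherian X]
    (hnX : ∀ x : X, IsIntegrallyClosed (X.presheaf.stalk x))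
    (p : X ⟶ B) [GeometricallyIrreducible p] (hp : IsOpenMap p)
    (hprime : Fermat.Agent.S26.H4943.StalkPrime p)
    (τ : B) [UniqueFactorizationMonoid (B.presheaf.stalk τ)] (ξ : X) (hξ : VertAt p τ ξ) :
    ∃ q : B.presheaf.stalk τ, Prime q ∧
      (∀ ξ' : X, VertAt p τ ξ' → ξ' ≠ ξ →
        IsUnitAt ξ' (pullFun p (algebraMap (B.presheaf.stalk τ) B.functionField q))) ∧
      ∀ f : X.functionField, f ≠ 0 → ∃ m : ℤ, IsUnitAt ξ
        (f * pullFun p (algebraMap (B.presheaf.stalk τ) B.functionField q) ^ m) := by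
  have hgen : p.base (genericPoint X) = genericPoint B :=
    Fermat.Agent.S26.CxT2925.map_genericPoint_of_isOpenMap p hp
  have hgf : HasGenericFibres p := Fermat.Agent.S26.CxT2925.hasGenericFibres_of_isOpenMap p hp
  have hξ1 : Order.coheight ξ = 1 := (Fermat.Agent.S26.CxT2925.isHtOne_iff_coheight ξ).1 hξ.1
  have hβ1 : Order.coheight (p.base ξ) = 1 := coheight_base_of_vertAt p hp hξ
  have hsp : p.base ξ ⤳ τ := hξ.2.2
  have hP1 : (primeOfSpecializes hsp).height = 1 :=
    (height_primeOfSpecializes_eq_one_iff hsp).2 hβ1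
  have hPbot : primeOfSpecializes hsp ≠ ⊥ := Ideal.ne_bot_of_height_eq_one hP1
  obtain ⟨q, hqP, hq⟩ := Ideal.IsPrime.exists_mem_prime_of_ne_bot inferInstance hPbot
  have hPq : primeOfSpecializes hsp = Ideal.span {q} :=
    (primeOfSpecializes hsp).eq_span_singleton_of_height_eq_one hP1 hqP hq
  refine ⟨q, hq, ?_, ?_⟩
  · intro ξ' hξ' hne
    have hsp' : p.base ξ' ⤳ τ := hξ'.2.2
    have hq' : q ∉ primeOfSpecializes hsp' := by
      intro hmem
      have hle : primeOfSpecializes hsp ≤ primeOfSpecializes hsp' := by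
        rw [hPq]; exact (Ideal.span_singleton_le_iff_mem _).2 hmem
      have hP'1 : (primeOfSpecializes hsp').height = 1 :=
        (height_primeOfSpecializes_eq_one_iff hsp').2 (coheight_base_of_vertAt p hp hξ')
      have heq := eq_of_le_of_ne_bot_of_height_one hle hPbot hP'1
      have hpp : p.base ξ = p.base ξ' := eq_of_primeOfSpecializes_eq hsp hsp' heq
      exact hne (eq_of_vertical hgf hgen hξ.1 hξ'.1 hξ'.2.1 (by rw [hpp]))
    have hu : IsUnit (B.presheaf.stalkSpecializes hsp' q) := by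
      by_contra h
      exact hq' ((mem_primeOfSpecializes hsp' q).2 h)
    have h1 := isUnitAt_algebraMap_of_isUnit hu
    rw [Fermat.Agent.S26.DIV.Bridge5416.algebraMap_stalkSpecializes B hsp' q] at h1
    exact isUnitAt_pullFun p ξ' h1
  · intro f hf
    have hq'0 : B.presheaf.stalkSpecializes hsp q ≠ 0 := by
      intro h0
      apply hq.ne_zero
      apply algebraMap_stalk_injective τ
      rw [← Fermat.Agent.S26.DIV.Bridge5416.algebraMap_stalkSpecializes B hsp q, h0, map_zero,
        map_zero]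
    have hq'p : Prime (B.presheaf.stalkSpecializes hsp q) := by
      rw [← Ideal.span_singleton_prime hq'0]
      let _ : Algebra (B.presheaf.stalk τ) (B.presheaf.stalk (p.base ξ)) :=
        (B.presheaf.stalkSpecializes hsp).hom.toAlgebra
      have hloc := isLocalization_stalkSpecializes hsp
      have hmax := IsLocalization.AtPrime.map_eq_maximalIdeal (primeOfSpecializes hsp)
        (B.presheaf.stalk (p.base ξ))
      have hspan : Ideal.span {(B.presheaf.stalkSpecializes hsp q : B.presheaf.stalk (p.base ξ))} =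
          IsLocalRing.maximalIdeal (B.presheaf.stalk (p.base ξ)) := by
        rw [← hmax, hPq, Ideal.map_span, Set.image_singleton]
        rfl
      rw [hspan]
      infer_instance
    have := hnX ξ
    obtain ⟨m, hm⟩ := pulled_uniformizer_of_prime p hprime ξ hξ1 _ hq'p f hf
    rw [Fermat.Agent.S26.DIV.Bridge5416.algebraMap_stalkSpecializes B hsp q] at hm
    exact ⟨m, hm⟩

/-- Only finitely many vertical height-one points over generizations of `τ` lie in the support
of a given rational function. -/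
theorem finite_vertAt_not_isUnitAt [IsLocallyNoetherian X]
    (p : X ⟶ B) [GeometricallyIrreducible p] (hp : IsOpenMap p) (τ : B)
    (y : X.functionField) (hy : y ≠ 0) :
    {ξ : X | VertAt p τ ξ ∧ ¬ IsUnitAt ξ y}.Finite := by
  classical
  have hgen : p.base (genericPoint X) = genericPoint B :=
    Fermat.Agent.S26.CxT2925.map_genericPoint_of_isOpenMap p hp
  have hgf : HasGenericFibres p := Fermat.Agent.S26.CxT2925.hasGenericFibres_of_isOpenMap p hp
  obtain ⟨φ, hφ, -⟩ := hgf τ
  have hVφ : ∀ ξ, VertAt p τ ξ → ξ ⤳ φ := fun ξ h =>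
    specializes_of_vertical hgf hgen h.1 h.2.1 (by rw [hφ]; exact h.2.2)
  obtain ⟨a, b, hb, hab⟩ := IsFractionRing.div_surjective (A := X.presheaf.stalk φ) y
  have hb0 : b ≠ 0 := nonZeroDivisors.ne_zero hb
  have ha0 : a ≠ 0 := by
    rintro rfl
    apply hy
    rw [← hab]
    simp
  have hfin := (finite_height_one_primes_mem ha0).union (finite_height_one_primes_mem hb0)
  let F : X → Ideal (X.presheaf.stalk φ) := fun ξ =>
    if h : ξ ⤳ φ then primeOfSpecializes h else ⊤
  have hFprime : ∀ ξ, (F ξ).IsPrime → ξ ⤳ φ := by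
    intro ξ hpr
    by_contra h
    have : F ξ = ⊤ := dif_neg h
    rw [this] at hpr
    exact hpr.ne_top rfl
  have hinj : Set.InjOn F (F ⁻¹' ({P : Ideal (X.presheaf.stalk φ) | P.IsPrime ∧ P.height = 1 ∧
      a ∈ P} ∪ {P : Ideal (X.presheaf.stalk φ) | P.IsPrime ∧ P.height = 1 ∧ b ∈ P})) := by
    intro ξ₁ h₁ ξ₂ h₂ heq
    have hp₁ : (F ξ₁).IsPrime := by rcases h₁ with h | h <;> exact h.1
    have hp₂ : (F ξ₂).IsPrime := by rcases h₂ with h | h <;> exact h.1
    have hs₁ := hFprime ξ₁ hp₁
    have hs₂ := hFprime ξ₂ hp₂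
    have e₁ : F ξ₁ = primeOfSpecializes hs₁ := dif_pos hs₁
    have e₂ : F ξ₂ = primeOfSpecializes hs₂ := dif_pos hs₂
    rw [e₁, e₂] at heq
    exact eq_of_primeOfSpecializes_eq hs₁ hs₂ heq
  refine (hfin.preimage hinj).subset ?_
  rintro ξ ⟨hV, hnu⟩
  have hs := hVφ ξ hV
  have e : F ξ = primeOfSpecializes hs := dif_pos hs
  have hξ1 : Order.coheight ξ = 1 := (Fermat.Agent.S26.CxT2925.isHtOne_iff_coheight ξ).1 hV.1
  have hP1 : (primeOfSpecializes hs).height = 1 :=
    (height_primeOfSpecializes_eq_one_iff hs).2 hξ1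
  rw [Set.mem_preimage, e]
  by_contra hcon
  apply hnu
  have ha' : a ∉ primeOfSpecializes hs := fun h => hcon (Or.inl ⟨inferInstance, hP1, h⟩)
  have hb' : b ∉ primeOfSpecializes hs := fun h => hcon (Or.inr ⟨inferInstance, hP1, h⟩)
  have hua : IsUnit (X.presheaf.stalkSpecializes hs a) := by
    by_contra h
    exact ha' ((mem_primeOfSpecializes hs a).2 h)
  have hub : IsUnit (X.presheaf.stalkSpecializes hs b) := by
    by_contra h
    exact hb' ((mem_primeOfSpecializes hs b).2 h)
  have h1 := isUnitAt_algebraMap_of_isUnit hua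
  have h2 := isUnitAt_algebraMap_of_isUnit hub
  rw [Fermat.Agent.S26.DIV.Bridge5416.algebraMap_stalkSpecializes X hs] at h1 h2
  rw [← hab]
  exact isUnitAt_div h1 h2

/-- **Local vertical modification** (field `locVert` of `IsCubeLike`): near the fibre over a
factorial point `τ` of the base, the vertical part of a Cartier family is the pull-back of a
principal divisor of the base. -/
theorem exists_locVert [IsLocallyNoetherian X]
    (hnX : ∀ x : X, IsIntegrallyClosed (X.presheaf.stalk x))
    (p : X ⟶ B) [GeometricallyIrreducible p] (hp : IsOpenMap p)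
    (hprime : Fermat.Agent.S26.H4943.StalkPrime p)
    (τ : B) [UniqueFactorizationMonoid (B.presheaf.stalk τ)]
    (Y : Fam X) (hY : Y.IsCartier) :
    ∃ v : (B.functionField)ˣ, ∀ ξ : X, IsHtOne ξ → p.base ξ ≠ genericPoint B → p.base ξ ⤳ τ →
      IsUnitAt ξ (((Y ξ : (X.functionField)ˣ) : X.functionField) /
        pullFun p (v : B.functionField)) := by
  classical
  have hgen : p.base (genericPoint X) = genericPoint B :=
    Fermat.Agent.S26.CxT2925.map_genericPoint_of_isOpenMap p hp
  have hgf : HasGenericFibres p := Fermat.Agent.S26.CxT2925.hasGenericFibres_of_isOpenMap p hp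
  obtain ⟨φ, hφ, -⟩ := hgf τ
  have hVφ : ∀ ξ, VertAt p τ ξ → ξ ⤳ φ := fun ξ h =>
    specializes_of_vertical hgf hgen h.1 h.2.1 (by rw [hφ]; exact h.2.2)
  set y : X.functionField := ((Y φ : (X.functionField)ˣ) : X.functionField) with hy
  have hy0 : y ≠ 0 := Units.ne_zero _
  have hfin := finite_vertAt_not_isUnitAt p hp τ y hy0
  have hdata := fun ξ (h : VertAt p τ ξ) => exists_prime_uniformizer hnX p hp hprime τ ξ h
  choose! qf hq hqunit hqm using hdata
  have hm : ∀ ξ, VertAt p τ ξ → ∃ m : ℤ, IsUnitAt ξ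
      (y * pullFun p (algebraMap (B.presheaf.stalk τ) B.functionField (qf ξ)) ^ m) :=
    fun ξ h => hqm ξ h y hy0
  choose! mf hmf using hm
  let g : X → X.functionField := fun ξ =>
    pullFun p (algebraMap (B.presheaf.stalk τ) B.functionField (qf ξ)) ^ (mf ξ)
  let s : Finset X := hfin.toFinset
  have hsV : ∀ ξ ∈ s, VertAt p τ ξ := fun ξ h => ((Set.Finite.mem_toFinset hfin).1 h).1
  let u : B.functionField :=
    ∏ ξ ∈ s, algebraMap (B.presheaf.stalk τ) B.functionField (qf ξ) ^ (mf ξ)
  have hu0 : u ≠ 0 := by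
    apply Finset.prod_ne_zero_iff.2
    intro ξ hξ
    apply zpow_ne_zero
    intro h0
    exact (hq ξ (hsV ξ hξ)).ne_zero (algebraMap_stalk_injective τ (by rw [h0, map_zero]))
  have hpu : pullFun p u⁻¹ = (∏ ξ ∈ s, g ξ)⁻¹ := by
    have h1 : pullFun p u⁻¹ = pullHom p hgen u⁻¹ := (pullHom_apply p hgen _).symm
    rw [h1, map_inv₀, map_prod]
    congr 1
    apply Finset.prod_congr rfl
    intro ξ _
    rw [map_zpow₀, pullHom_apply]
  refine ⟨(Units.mk0 u hu0)⁻¹, ?_⟩
  intro ξ' hξ' hv' hsp'
  have hV' : VertAt p τ ξ' := ⟨hξ', hv', hsp'⟩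
  have hval : (((Units.mk0 u hu0)⁻¹ : (B.functionField)ˣ) : B.functionField) = u⁻¹ := by
    rw [Units.val_inv_eq_inv_val, Units.val_mk0]
  rw [hval, hpu, div_inv_eq_mul]
  have h1 : IsUnitAt ξ' (((Y ξ' / Y φ : (X.functionField)ˣ)) : X.functionField) :=
    isCartier_isUnitAt_of_specializes hY (hVφ ξ' hV')
  have hother : ∀ ξ ∈ s, ξ ≠ ξ' → IsUnitAt ξ' (g ξ) := fun ξ hξ hne =>
    isUnitAt_zpow (hqunit ξ (hsV ξ hξ) ξ' hV' (Ne.symm hne)) (mf ξ)
  have h2 : IsUnitAt ξ' (y * ∏ ξ ∈ s, g ξ) := by
    by_cases hmem : ξ' ∈ s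
    · rw [← Finset.mul_prod_erase s g hmem, ← mul_assoc]
      refine isUnitAt_mul (hmf ξ' hV') (isUnitAt_finset_prod _ _ _ ?_)
      intro ξ hξ
      exact hother ξ (Finset.mem_of_mem_erase hξ) (Finset.ne_of_mem_erase hξ)
    · have hyu : IsUnitAt ξ' y := by
        by_contra hnu
        exact hmem ((Set.Finite.mem_toFinset hfin).2 ⟨hV', hnu⟩)
      refine isUnitAt_mul hyu (isUnitAt_finset_prod _ _ _ ?_)
      intro ξ hξ
      exact hother ξ hξ (fun h => hmem (h ▸ hξ))
  have h3 := isUnitAt_mul h1 h2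
  have e : (((Y ξ' / Y φ : (X.functionField)ˣ)) : X.functionField) * (y * ∏ ξ ∈ s, g ξ) =
      ((Y ξ' : (X.functionField)ˣ) : X.functionField) * ∏ ξ ∈ s, g ξ := by
    rw [← mul_assoc, hy, ← Units.val_mul, div_mul_cancel]
  rwa [e] at h3

end Scheme

end

end Fermat.Agent.S26.CUBE3.H1665
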